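import Mathlib

/-!
# The `x`-only group law on a Weierstrass curve

For two affine points `P = (x₁, y₁)`, `Q = (x₂, y₂)` with `x₁ ≠ x₂` on a Weierstrass curve over a
field, `(T - x(P+Q)) (T - x(P-Q)) (x₁ - x₂)² = Θ(x₁, x₂, T)` where `Θ` is the (totally symmetric)
Cayley biquadratic form.  We also record the duplication formula in the same shape.
-/

namespace Fermat.Agent.S13lib.DivPoly

open WeierstrassCurve WeierstrassCurve.Affine WeierstrassCurve.Affine.Point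

variable {F : Type*} [Field F]

/-- The Cayley biquadratic of a Weierstrass curve. -/
def Theta (W : WeierstrassCurve F) (u v w : F) : F :=
  (u - v) ^ 2 * w ^ 2 - (2 * (u + v) * u * v + W.b₂ * u * v + W.b₄ * (u + v) + W.b₆) * w +
    (u ^ 2 * v ^ 2 - W.b₄ * u * v - W.b₆ * (u + v) - W.b₈)

lemma Theta_comm (W : WeierstrassCurve F) (u v w : F) : Theta W u v w = Theta W v u w := by
  unfold Theta; ring

lemma Theta_comm' (W : WeierstrassCurve F) (u v w : F) : Theta W u v w = Theta W u w v := by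
  unfold Theta; ring

lemma Theta_rotate (W : WeierstrassCurve F) (u v w : F) : Theta W u v w = Theta W v w u := by
  unfold Theta; ring

/-- `Θ(x, x, w) = Φ₂(x) - w Ψ₂Sq(x)`. -/
lemma Theta_self (W : WeierstrassCurve F) (x w : F) :
    Theta W x x w = (x ^ 4 - W.b₄ * x ^ 2 - 2 * W.b₆ * x - W.b₈) -
      w * (4 * x ^ 3 + W.b₂ * x ^ 2 + 2 * W.b₄ * x + W.b₆) := by
  unfold Theta; ring

/-- The polynomial identity behind the `x`-only group law. -/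
lemma xonly_poly (W : Affine F) {x₁ x₂ y₁ y₂ T : F} (h₁ : W.Equation x₁ y₁)
    (h₂ : W.Equation x₂ y₂) :
    ((W.a₂ + x₁ + x₂ + T) * (x₁ - x₂) ^ 2 - (y₁ - y₂) ^ 2 - W.a₁ * (x₁ - x₂) * (y₁ - y₂)) *
    ((W.a₂ + x₁ + x₂ + T) * (x₁ - x₂) ^ 2 - (y₁ - W.negY x₂ y₂) ^ 2 -
      W.a₁ * (x₁ - x₂) * (y₁ - W.negY x₂ y₂)) = (x₁ - x₂) ^ 2 * Theta W x₁ x₂ T := by
  rw [equation_iff] at h₁ h₂
  unfold Theta
  simp only [negY, b₂, b₄, b₆, b₈]
  grind

/-- The `x`-only group law for the explicit addition formulas. -/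
lemma xonly_addX (W : Affine F) {x₁ x₂ y₁ y₂ : F} (h₁ : W.Equation x₁ y₁)
    (h₂ : W.Equation x₂ y₂) (hx : x₁ ≠ x₂) (T : F) :
    (T - W.addX x₁ x₂ ((y₁ - y₂) / (x₁ - x₂))) *
      (T - W.addX x₁ x₂ ((y₁ - W.negY x₂ y₂) / (x₁ - x₂))) * (x₁ - x₂) ^ 2 =
      Theta W x₁ x₂ T := by
  have hd : x₁ - x₂ ≠ 0 := sub_ne_zero.mpr hx
  have key := xonly_poly W (T := T) h₁ h₂
  have e1 : (T - W.addX x₁ x₂ ((y₁ - y₂) / (x₁ - x₂))) * (x₁ - x₂) ^ 2 =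
      (W.a₂ + x₁ + x₂ + T) * (x₁ - x₂) ^ 2 - (y₁ - y₂) ^ 2 - W.a₁ * (x₁ - x₂) * (y₁ - y₂) := by
    simp only [addX]
    field_simp
    ring
  have e2 : (T - W.addX x₁ x₂ ((y₁ - W.negY x₂ y₂) / (x₁ - x₂))) * (x₁ - x₂) ^ 2 =
      (W.a₂ + x₁ + x₂ + T) * (x₁ - x₂) ^ 2 - (y₁ - W.negY x₂ y₂) ^ 2 -
        W.a₁ * (x₁ - x₂) * (y₁ - W.negY x₂ y₂) := by
    simp only [addX]
    field_simp
    ring
  have hd2 : (x₁ - x₂) ^ 2 ≠ 0 := pow_ne_zero 2 hd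
  apply mul_right_cancel₀ hd2
  calc (T - W.addX x₁ x₂ ((y₁ - y₂) / (x₁ - x₂))) *
        (T - W.addX x₁ x₂ ((y₁ - W.negY x₂ y₂) / (x₁ - x₂))) * (x₁ - x₂) ^ 2 * (x₁ - x₂) ^ 2
      = ((T - W.addX x₁ x₂ ((y₁ - y₂) / (x₁ - x₂))) * (x₁ - x₂) ^ 2) *
        ((T - W.addX x₁ x₂ ((y₁ - W.negY x₂ y₂) / (x₁ - x₂))) * (x₁ - x₂) ^ 2) := by ring
    _ = (x₁ - x₂) ^ 2 * Theta W x₁ x₂ T := by rw [e1, e2, key]
    _ = Theta W x₁ x₂ T * (x₁ - x₂) ^ 2 := by ring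

/-- The `x`-coordinate of a point (junk value `0` at the point at infinity). -/
def xc {W : Affine F} : W.Point → F
  | .zero => 0
  | .some x _ _ => x

@[simp] lemma xc_zero {W : Affine F} : xc (0 : W.Point) = 0 := rfl

@[simp] lemma xc_some {W : Affine F} {x y : F} (h : W.Nonsingular x y) :
    xc (Point.some x y h) = x := rfl

@[simp] lemma xc_neg {W : Affine F} (P : W.Point) : xc (-P) = xc P := by
  cases P <;> rfl

variable [DecidableEq F]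

/-- The `x`-only group law on points. -/
theorem xonly_add_sub {W : Affine F} {P Q : W.Point} (hP : P ≠ 0) (hQ : Q ≠ 0)
    (hx : xc P ≠ xc Q) :
    P + Q ≠ 0 ∧ P - Q ≠ 0 ∧
      ∀ T : F, (T - xc (P + Q)) * (T - xc (P - Q)) * (xc P - xc Q) ^ 2 =
        Theta W (xc P) (xc Q) T := by
  rcases P with _ | ⟨x₁, y₁, h₁⟩
  · exact absurd rfl hP
  rcases Q with _ | ⟨x₂, y₂, h₂⟩
  · exact absurd rfl hQ
  simp only [xc_some] at hx
  have hadd : Point.some x₁ y₁ h₁ + Point.some x₂ y₂ h₂ =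
      Point.some _ _ (nonsingular_add h₁ h₂ fun hxy => hx hxy.left) := add_of_X_ne hx
  have hsub : Point.some x₁ y₁ h₁ - Point.some x₂ y₂ h₂ =
      Point.some _ _ (nonsingular_add h₁ ((nonsingular_neg ..).mpr h₂)
        fun hxy => hx hxy.left) := by
    rw [sub_eq_add_neg, neg_some, add_of_X_ne hx]
  refine ⟨?_, ?_, fun T => ?_⟩
  · rw [hadd]; exact some_ne_zero _
  · rw [hsub]; exact some_ne_zero _
  · rw [hadd, hsub]
    simp only [xc_some]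
    rw [slope_of_X_ne hx, slope_of_X_ne hx]
    exact xonly_addX W h₁.1 h₂.1 hx T

omit [DecidableEq F] in
/-- Duplication formula: polynomial form. -/
lemma dup_poly (W : Affine F) {x y : F} (h : W.Equation x y) :
    (y - W.negY x y) ^ 2 = 4 * x ^ 3 + W.b₂ * x ^ 2 + 2 * W.b₄ * x + W.b₆ := by
  rw [equation_iff] at h
  simp only [negY, b₂, b₄, b₆]
  linear_combination 4 * h

omit [DecidableEq F] in
lemma dup_addX (W : Affine F) {x y : F} (h : W.Equation x y) (hy : y ≠ W.negY x y) :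
    W.addX x x ((3 * x ^ 2 + 2 * W.a₂ * x + W.a₄ - W.a₁ * y) / (y - W.negY x y)) *
      (4 * x ^ 3 + W.b₂ * x ^ 2 + 2 * W.b₄ * x + W.b₆) =
      x ^ 4 - W.b₄ * x ^ 2 - 2 * W.b₆ * x - W.b₈ := by
  have hd : y - W.negY x y ≠ 0 := sub_ne_zero.mpr hy
  rw [← dup_poly W h]
  rw [equation_iff] at h
  simp only [addX]
  field_simp
  simp only [negY, b₄, b₆, b₈]
  grind

/-- Duplication in `Θ`-form: if `2 • P ≠ 0` then `Θ(x, x, w) = Ψ₂Sq(x) (x(2P) - w)`. -/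
theorem Theta_self_of_two_nsmul {W : Affine F} {P : W.Point} (hP : P ≠ 0) (h2 : P + P ≠ 0)
    (w : F) :
    Theta W (xc P) (xc P) w =
      (4 * xc P ^ 3 + W.b₂ * xc P ^ 2 + 2 * W.b₄ * xc P + W.b₆) * (xc (P + P) - w) := by
  rcases P with _ | ⟨x, y, h⟩
  · exact absurd rfl hP
  have hy : y ≠ W.negY x y := by
    intro hy
    exact h2 (add_self_of_Y_eq hy)
  rw [add_self_of_Y_ne hy]
  simp only [xc_some]
  rw [slope_of_Y_ne rfl hy, Theta_self]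
  have := dup_addX W h.1 hy
  linear_combination (-1 : F) * this

/-- `Ψ₂Sq(x) ≠ 0` when `2 • P ≠ 0`. -/
theorem Psi2Sq_ne_zero_of_two_nsmul {W : Affine F} {P : W.Point} (hP : P ≠ 0) (h2 : P + P ≠ 0) :
    4 * xc P ^ 3 + W.b₂ * xc P ^ 2 + 2 * W.b₄ * xc P + W.b₆ ≠ 0 := by
  rcases P with _ | ⟨x, y, h⟩
  · exact absurd rfl hP
  have hy : y ≠ W.negY x y := by
    intro hy
    exact h2 (add_self_of_Y_eq hy)
  simp only [xc_some]
  rw [← dup_poly W h.1]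
  exact pow_ne_zero 2 (sub_ne_zero.mpr hy)

/-- Sum form of the `x`-only law:
`(x(P+Q) + x(P-Q)) (x_P - x_Q)² = 2 (x_P + x_Q) x_P x_Q + b₂ x_P x_Q + b₄ (x_P + x_Q) + b₆`. -/
theorem xonly_sum {W : Affine F} {P Q : W.Point} (hP : P ≠ 0) (hQ : Q ≠ 0)
    (hx : xc P ≠ xc Q) :
    (xc (P + Q) + xc (P - Q)) * (xc P - xc Q) ^ 2 =
      2 * (xc P + xc Q) * xc P * xc Q + W.b₂ * xc P * xc Q + W.b₄ * (xc P + xc Q) + W.b₆ := by
  obtain ⟨-, -, h⟩ := xonly_add_sub hP hQ hx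
  have h0 := h 0
  have h1 := h 1
  unfold Theta at h0 h1
  linear_combination h0 - h1

/-- Product form of the `x`-only law:
`x(P+Q) x(P-Q) (x_P - x_Q)² = x_P² x_Q² - b₄ x_P x_Q - b₆ (x_P + x_Q) - b₈`. -/
theorem xonly_prod {W : Affine F} {P Q : W.Point} (hP : P ≠ 0) (hQ : Q ≠ 0)
    (hx : xc P ≠ xc Q) :
    xc (P + Q) * xc (P - Q) * (xc P - xc Q) ^ 2 =
      xc P ^ 2 * xc Q ^ 2 - W.b₄ * xc P * xc Q - W.b₆ * (xc P + xc Q) - W.b₈ := by
  obtain ⟨-, -, h⟩ := xonly_add_sub hP hQ hx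
  have h0 := h 0
  unfold Theta at h0
  linear_combination h0

/-- Duplication formula on points:
`x(2P) Ψ₂Sq(x_P) = x_P⁴ - b₄ x_P² - 2 b₆ x_P - b₈` when `2 • P ≠ 0`. -/
theorem xc_add_self_mul {W : Affine F} {P : W.Point} (hP : P ≠ 0) (h2 : P + P ≠ 0) :
    xc (P + P) * (4 * xc P ^ 3 + W.b₂ * xc P ^ 2 + 2 * W.b₄ * xc P + W.b₆) =
      xc P ^ 4 - W.b₄ * xc P ^ 2 - 2 * W.b₆ * xc P - W.b₈ := by
  have h := Theta_self_of_two_nsmul hP h2 0
  rw [Theta_self] at h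
  linear_combination (-1 : F) * h

/-- `Ψ₂Sq(x_P) = 0` when `2 • P = 0`, `P ≠ 0`. -/
theorem Psi2Sq_eq_zero_of_two_nsmul {W : Affine F} {P : W.Point} (hP : P ≠ 0) (h2 : P + P = 0) :
    4 * xc P ^ 3 + W.b₂ * xc P ^ 2 + 2 * W.b₄ * xc P + W.b₆ = 0 := by
  rcases P with _ | ⟨x, y, h⟩
  · exact absurd rfl hP
  have hy : y = W.negY x y := by
    by_contra hy
    rw [add_self_of_Y_ne hy] at h2
    exact some_ne_zero _ h2
  simp only [xc_some]
  rw [← dup_poly W h.1, sub_eq_zero.mpr hy]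
  ring

end Fermat.Agent.S13lib.DivPoly
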